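import Fermat.Agent.Lib.RR.Bridge27
import Fermat.Agent.S27.Model

/-!
# Project S27, block RR: the Riemann-Roch package

The mathematics is in the library `Fermat/Agent/Lib/RR/*` (classes `IsPreFF`, `IsFF`). This file
* delivers the contract `stmtRR : StmtRR`;
* restates the elementary facts on `L(D)` for `BaseHyp k F` + `Nonempty (Place k F)`;
* restates the standard corollaries of Riemann-Roch for `CurveHyp k F`.

To use the whole API of `Lib.RR` under `h : CurveHyp k F` write
`have := Fermat.Agent.Lib.RR.isFF_of_curveHyp h`; under `h : BaseHyp k F` and a place write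
`have := Fermat.Agent.S27.RR.isPreFF h hne`.
`Fermat.Agent.S27.ell` and `Fermat.Agent.Lib.RR.ell` are definitionally equal.
-/

set_option autoImplicit false

namespace Fermat.Agent.S27.RR

open AlgebraicCurve

universe u v

/-- **Contract of block RR.** -/
theorem stmtRR : StmtRR.{u, v} := fun _ _ _ _ _ h => Lib.RR.rrPackage_of_curveHyp h

variable {k : Type u} {F : Type v} [Field k] [Field F] [Algebra k F]

/-! ## Under `BaseHyp` -/

theorem deg_eq_one (h : BaseHyp k F) (v : Place k F) : v.deg = 1 :=
  Lib.RR.deg_eq_one_of_baseHyp h v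

theorem isPreFF (h : BaseHyp k F) (hne : Nonempty (Place k F)) : Lib.RR.IsPreFF k F := by
  have hP : HasPrincipalDivisors k F := h.principal
  refine { hP with finiteResidue := ?_, nonempty := hne }
  intro v
  apply Module.finite_of_finrank_pos
  have := deg_eq_one h v
  rw [Place.deg] at this
  omega

/-- the degree is the sum of the coefficients. -/
theorem degree_eq_sum (h : BaseHyp k F) (D : Divisor k F) :
    Divisor.degree D = D.sum fun _ n => n := by
  rw [Lib.RR.Basic_degree_eq_sum]
  refine Finset.sum_congr rfl fun v _ => ?_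
  simp only [deg_eq_one h v]
  simp

theorem degree_single (h : BaseHyp k F) (v : Place k F) (n : ℤ) :
    Divisor.degree (Finsupp.single v n) = n := by
  rw [Divisor.degree_single, deg_eq_one h v]
  simp

theorem degree_mono (h : BaseHyp k F) {D D' : Divisor k F} (hD : D ≤ D') :
    Divisor.degree D ≤ Divisor.degree D' := by
  by_cases hne : Nonempty (Place k F)
  · have := isPreFF h hne
    exact Lib.RR.degree_mono hD
  · have h1 : D = 0 := by ext v; exact absurd ⟨v⟩ hne
    have h2 : D' = 0 := by ext v; exact absurd ⟨v⟩ hne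
    rw [h1, h2]

theorem finite_L (h : BaseHyp k F) (hne : Nonempty (Place k F)) (D : Divisor k F) :
    Module.Finite k (riemannRochSpace D) := by
  have := isPreFF h hne
  infer_instance

theorem L_eq_bot_of_degree_neg (h : BaseHyp k F) {D : Divisor k F} (hD : Divisor.degree D < 0) :
    riemannRochSpace D = ⊥ := by
  have hne : Nonempty (Place k F) := by
    by_contra hne
    have h1 : D = 0 := by ext v; exact absurd ⟨v⟩ hne
    rw [h1, map_zero] at hD
    exact lt_irrefl _ hD
  have := isPreFF h hne
  exact Lib.RR.L_eq_bot_of_degree_neg hD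

theorem ell_eq_zero_of_degree_neg (h : BaseHyp k F) {D : Divisor k F}
    (hD : Divisor.degree D < 0) : ell D = 0 := by
  unfold ell
  rw [L_eq_bot_of_degree_neg h hD]
  exact finrank_bot k F

theorem ell_zero (h : BaseHyp k F) (hne : Nonempty (Place k F)) : ell (0 : Divisor k F) = 1 := by
  have := isPreFF h hne
  obtain ⟨v⟩ := hne
  exact Lib.RR.ell_zero_of_deg_eq_one v (deg_eq_one h v)

/-- `L(0) = k`. -/
theorem mem_L_zero_iff (h : BaseHyp k F) (hne : Nonempty (Place k F)) {f : F} :
    f ∈ riemannRochSpace (0 : Divisor k F) ↔ f ∈ Set.range (algebraMap k F) := by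
  constructor
  · intro hf
    have h1 : (1 : F) ∈ riemannRochSpace (0 : Divisor k F) := by
      have := Lib.RR.algebraMap_mem_L_zero (K := k) (F := F) 1
      rwa [map_one] at this
    have h0 : Module.finrank k (riemannRochSpace (0 : Divisor k F)) = 1 := ell_zero h hne
    have hne1 : (⟨1, h1⟩ : riemannRochSpace (0 : Divisor k F)) ≠ 0 := by
      intro hcon
      exact one_ne_zero (congrArg Subtype.val hcon)
    obtain ⟨c, hc⟩ := (finrank_eq_one_iff_of_nonzero' _ hne1).mp h0 ⟨f, hf⟩
    refine ⟨c, ?_⟩
    have := congrArg Subtype.val hc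
    simpa [Algebra.smul_def] using this
  · rintro ⟨a, rfl⟩
    exact Lib.RR.algebraMap_mem_L_zero a

theorem L_mono {D D' : Divisor k F} (hD : D ≤ D') :
    riemannRochSpace D ≤ riemannRochSpace D' := Lib.RR.L_mono hD

theorem ell_mono (h : BaseHyp k F) (hne : Nonempty (Place k F)) {D D' : Divisor k F}
    (hD : D ≤ D') : ell D ≤ ell D' := by
  have := isPreFF h hne
  exact Lib.RR.ell_mono hD

/-- `ℓ(D') ≤ ℓ(D) + deg D' - deg D` for `D ≤ D'`. -/
theorem ell_le_add (h : BaseHyp k F) (hne : Nonempty (Place k F)) {D D' : Divisor k F}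
    (hD : D ≤ D') : (ell D' : ℤ) ≤ ell D + (Divisor.degree D' - Divisor.degree D) := by
  have := isPreFF h hne
  have := Lib.RR.ell_le_of_le hD
  change (ell D' : ℤ) - Divisor.degree D' ≤ ell D - Divisor.degree D at this
  linarith

/-- `r(D) = deg D - ℓ(D)` is monotone. -/
theorem r_mono (h : BaseHyp k F) (hne : Nonempty (Place k F)) {D D' : Divisor k F}
    (hD : D ≤ D') : Divisor.degree D - (ell D : ℤ) ≤ Divisor.degree D' - (ell D' : ℤ) := by
  have := ell_le_add h hne hD
  linarith

theorem ell_add_single_le (h : BaseHyp k F) (hne : Nonempty (Place k F)) (D : Divisor k F)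
    (v : Place k F) : ell (D + Finsupp.single v 1) ≤ ell D + 1 := by
  have := isPreFF h hne
  have := Lib.RR.ell_add_pt_le D v
  rw [deg_eq_one h v] at this
  exact this

/-- `ℓ(D) ≤ deg D + 1` for `deg D ≥ 0`. -/
theorem ell_le_degree_add_one (h : BaseHyp k F) (hne : Nonempty (Place k F)) {D : Divisor k F}
    (hD : 0 ≤ Divisor.degree D) : (ell D : ℤ) ≤ Divisor.degree D + 1 := by
  have := isPreFF h hne
  by_cases hpos : 0 < Lib.RR.ell D
  · obtain ⟨f, hf, hfD⟩ := Lib.RR.ell_pos_iff.1 hpos
    have hE : 0 ≤ D + Lib.RR.divOf f := by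
      rcases Lib.RR.mem_L_iff.1 hfD with h | h
      · exact absurd h hf
      · rwa [add_comm] at h
    have h1 := Lib.RR.ell_le_of_le hE
    rw [Lib.RR.ell_add_divOf D hf, map_add, Lib.RR.degree_divOf, map_zero] at h1
    have h0 : Lib.RR.ell (0 : Divisor k F) = 1 := ell_zero h hne
    rw [h0] at h1
    change (Lib.RR.ell D : ℤ) ≤ _
    push_cast at h1
    linarith
  · have h0 : Lib.RR.ell D = 0 := by omega
    change (Lib.RR.ell D : ℤ) ≤ _
    rw [h0]
    push_cast
    linarith

theorem ell_pos_iff (h : BaseHyp k F) (hne : Nonempty (Place k F)) {D : Divisor k F} :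
    0 < ell D ↔ ∃ f : F, f ≠ 0 ∧ f ∈ riemannRochSpace D := by
  have := isPreFF h hne
  exact Lib.RR.ell_pos_iff

/-- invariance under linear equivalence: `E` the divisor of `f ≠ 0`. -/
theorem ell_add_div (h : BaseHyp k F) (D : Divisor k F) {f : F} (hf : f ≠ 0) {E : Divisor k F}
    (hE : ∀ v : Place k F, E v = v.ord f) : ell (D + E) = ell D := by
  have : HasPrincipalDivisors k F := h.principal
  have : E = Lib.RR.divOf f := by
    ext v
    rw [hE, Lib.RR.divOf_apply]
  rw [this]
  exact Lib.RR.ell_add_divOf D hf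

/-- the divisor of `f ≠ 0` has degree `0`. -/
theorem degree_div (h : BaseHyp k F) {f : F} {E : Divisor k F}
    (hE : ∀ v : Place k F, E v = v.ord f) : Divisor.degree E = 0 := by
  have : HasPrincipalDivisors k F := h.principal
  have : E = Lib.RR.divOf f := by
    ext v
    rw [hE, Lib.RR.divOf_apply]
  rw [this]
  exact Lib.RR.degree_divOf f

/-! ## Under `CurveHyp` -/

theorem nonempty_place (h : CurveHyp k F) : Nonempty (Place k F) := by
  have := Lib.RR.isFF_of_curveHyp h
  exact Lib.RR.IsPreFF.nonempty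

/-- Riemann's inequality. -/
theorem riemann_ineq (h : CurveHyp k F) (D : Divisor k F) :
    Divisor.degree D + 1 - (genusFF k F : ℤ) ≤ ell D := by
  have := (stmtRR k F h).riemann D
  have h2 : (0 : ℤ) ≤ (Module.finrank k (H1 D) : ℤ) := Int.natCast_nonneg _
  linarith

/-- Riemann-Roch: there is a canonical divisor. -/
theorem riemann_roch (h : CurveHyp k F) : ∃ W : Divisor k F,
    Divisor.degree W = 2 * (genusFF k F : ℤ) - 2 ∧ ell W = genusFF k F ∧
    ∀ D : Divisor k F, (ell D : ℤ) = Divisor.degree D + 1 - (genusFF k F : ℤ) + ell (W - D) := by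
  obtain ⟨W, hW⟩ := (stmtRR k F h).duality
  have hR := (stmtRR k F h).riemann
  have h0 : ell (0 : Divisor k F) = 1 := ell_zero h.toBaseHyp (nonempty_place h)
  have hWg : ell W = genusFF k F := by
    have := hW 0
    rw [sub_zero] at this
    exact this.symm
  refine ⟨W, ?_, hWg, fun D => ?_⟩
  · have h1 := hR W
    rw [hW W, sub_self, h0, hWg] at h1
    push_cast at h1
    linarith
  · have h1 := hR D
    rw [hW D] at h1
    linarith

/-- `ℓ(D) = deg D + 1 - g` for `deg D > 2g - 2`. -/
theorem ell_eq_of_lt_degree (h : CurveHyp k F) {D : Divisor k F}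
    (hD : 2 * (genusFF k F : ℤ) - 2 < Divisor.degree D) :
    (ell D : ℤ) = Divisor.degree D + 1 - (genusFF k F : ℤ) := by
  obtain ⟨W, hW, -, hRR⟩ := riemann_roch h
  have h1 := hRR D
  rw [ell_eq_zero_of_degree_neg h.toBaseHyp (D := W - D) (by rw [map_sub, hW]; linarith)] at h1
  simpa using h1

/-- A divisor of degree `≥ g` is linearly equivalent to an effective one. -/
theorem exists_effective (h : CurveHyp k F) {D : Divisor k F}
    (hD : (genusFF k F : ℤ) ≤ Divisor.degree D) :
    ∃ f : F, f ≠ 0 ∧ ∀ v : Place k F, 0 ≤ v.ord f + D v := by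
  have h1 := riemann_ineq h D
  have hpos : 0 < ell D := by
    have : (0 : ℤ) < ell D := by linarith
    exact_mod_cast this
  obtain ⟨f, hf, hfD⟩ := (ell_pos_iff h.toBaseHyp (nonempty_place h)).1 hpos
  refine ⟨f, hf, fun v => ?_⟩
  rcases (mem_riemannRochSpace_iff.1 hfD) v with h | h
  · exact absurd h hf
  · linarith

end Fermat.Agent.S27.RR
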